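import Fermat.Agent.Local.Torsion
import Fermat.Agent.Local.Primes
import Fermat.Agent.Local.FreyArith
import Mathlib.AlgebraicGeometry.EllipticCurve.IsomOfJ

/-!
# A good or nodal model at a place of the algebraic closure

An elliptic curve over `ℚ` is isomorphic over `ℚ̄`, at a given place, to an integral equation whose
discriminant is a unit or whose `c₄` is a unit: the Deuring form outside `3`, the Legendre form at
`3`, and an equation with unit `c₄` at a pole of `j`.
-/

set_option autoImplicit false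

noncomputable section

open Polynomial WeierstrassCurve FA.Local
open scoped WeierstrassCurve.Affine

local notation "Qb" => AlgebraicClosure ℚ

namespace FA.IsogenyPrimes

variable {q : ℕ} {A : ValuationSubring Qb}

/-- A polynomial with integral coefficients and unit leading coefficient has an integral root. -/
theorem exists_integral_root {P : Qb[X]} (hd : P.natDegree ≠ 0)
    (hc : ∀ k, A.valuation (P.coeff k) ≤ 1) (hl : A.valuation P.leadingCoeff = 1) :
    ∃ x, P.eval x = 0 ∧ A.valuation x ≤ 1 := by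
  obtain ⟨x, hx⟩ := IsAlgClosed.exists_root P
    (fun h => hd (natDegree_eq_zero_iff_degree_le_zero.mpr h.le))
  exact ⟨x, hx, root_le_one hc hl hx⟩

/-- The Deuring parameter at a prime other than `3`. -/
theorem exists_deuring (hq : q.Prime) (hA : A.LiesOverPrime q) (h3 : q ≠ 3) {J : Qb}
    (hJ : A.valuation J ≤ 1) :
    ∃ a : Qb, A.valuation a ≤ 1 ∧ A.valuation (a ^ 3 - 27) = 1 ∧
      (a * (a ^ 3 - 24)) ^ 3 = J * (a ^ 3 - 27) := by
  have hv := map_natCast_lt_one hA
  have v3 : A.valuation (3 : Qb) = 1 := by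
    have := natCast_eq_one_of_not_dvd hq hv (n := 3) fun h => h3
      ((Nat.prime_dvd_prime_iff_eq hq Nat.prime_three).mp (by exact_mod_cast h))
    simpa using this
  let P : Qb[X] := X * (X - C 24) ^ 3 - C J * X + C (27 * J)
  have hP : P.natDegree = 4 ∧ P.leadingCoeff = 1 := by
    have hdeg : P.natDegree = 4 := by
      show (X * (X - C (24 : Qb)) ^ 3 - C J * X + C (27 * J)).natDegree = 4
      compute_degree!
    refine ⟨hdeg, ?_⟩
    rw [leadingCoeff, hdeg]
    show (X * (X - C (24 : Qb)) ^ 3 - C J * X + C (27 * J)).coeff 4 = 1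
    compute_degree!
  obtain ⟨hdeg, hlead⟩ := hP
  have hc : ∀ k, A.valuation (P.coeff k) ≤ 1 := by
    let B : Subring Qb := A.valuation.integer
    have hPB : P ∈ (mapRingHom B.subtype).range := by
      refine ⟨X * (X - C (24 : B)) ^ 3 - C ⟨J, hJ⟩ * X + C (27 * ⟨J, hJ⟩), ?_⟩
      simp [P, Polynomial.map_ofNat, map_ofNat]
    obtain ⟨Q, hQ⟩ := hPB
    intro k
    rw [← hQ, coe_mapRingHom, coeff_map]
    exact (Q.coeff k).2
  obtain ⟨t, ht, hti⟩ := exists_integral_root (by omega) hc (by rw [hlead, map_one])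
  have ht0 : t * (t - 24) ^ 3 = J * (t - 27) := by
    simp only [P, eval_add, eval_sub, eval_mul, eval_pow, eval_X, eval_C] at ht
    linear_combination ht
  obtain ⟨a, rfl⟩ := IsAlgClosed.exists_pow_nat_eq t (show 0 < 3 by norm_num)
  refine ⟨a, (pow_le_one_iff_of_nonneg zero_le (by norm_num : (3 : ℕ) ≠ 0)).mp
    (by rwa [← map_pow]), ?_, by linear_combination ht0⟩
  by_contra hne
  have h27 : A.valuation (a ^ 3 - 27) < 1 :=
    lt_of_le_of_ne (A.valuation.map_sub_le hti (natCast_le_one 27)) hne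
  have h1 : A.valuation (a ^ 3 - 24) = 1 := by
    rw [show a ^ 3 - 24 = 3 + (a ^ 3 - 27) by ring,
      A.valuation.map_add_eq_of_lt_left (by rwa [v3]), v3]
  have h2 : A.valuation (a ^ 3) = 1 := by
    have v27 : A.valuation (27 : Qb) = 1 := by
      rw [show (27 : Qb) = 3 ^ 3 by norm_num, map_pow, v3, one_pow]
    rw [show a ^ 3 = 27 + (a ^ 3 - 27) by ring,
      A.valuation.map_add_eq_of_lt_left (by rwa [v27]), v27]
  have := congrArg A.valuation ht0
  rw [map_mul, map_mul, map_pow _ (a ^ 3 - 24), h1, h2, one_pow, one_mul] at this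
  exact absurd this.symm (ne_of_lt ((mul_le_of_le_one_left' hJ).trans_lt h27))

/-- The Legendre parameter at an odd prime. -/
theorem exists_legendre (hq : q.Prime) (hA : A.LiesOverPrime q) (h2 : q ≠ 2) {J : Qb}
    (hJ : A.valuation J ≤ 1) :
    ∃ l : Qb, A.valuation l = 1 ∧ A.valuation (l - 1) = 1 ∧
      256 * (l ^ 2 - l + 1) ^ 3 = J * (l ^ 2 * (l - 1) ^ 2) := by
  have hv := map_natCast_lt_one hA
  have v256 : A.valuation (256 : Qb) = 1 := by
    have := natCast_eq_one_of_not_dvd hq hv (n := 256) fun h => h2 <|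
      (Nat.prime_dvd_prime_iff_eq hq Nat.prime_two).mp (hq.dvd_of_dvd_pow (n := 8)
        (by exact_mod_cast h))
    simpa using this
  let P : Qb[X] := C 256 * (X ^ 2 - X + 1) ^ 3 - C J * (X ^ 2 * (X - 1) ^ 2)
  have hP : P.natDegree = 6 ∧ P.leadingCoeff = 256 := by
    have hdeg : P.natDegree = 6 := by
      show (C (256 : Qb) * (X ^ 2 - X + 1) ^ 3 - C J * (X ^ 2 * (X - 1) ^ 2)).natDegree = 6
      compute_degree!
    refine ⟨hdeg, ?_⟩
    rw [leadingCoeff, hdeg]
    show (C (256 : Qb) * (X ^ 2 - X + 1) ^ 3 - C J * (X ^ 2 * (X - 1) ^ 2)).coeff 6 = 256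
    compute_degree!
  obtain ⟨hdeg, hlead⟩ := hP
  have hc : ∀ k, A.valuation (P.coeff k) ≤ 1 := by
    let B : Subring Qb := A.valuation.integer
    have hPB : P ∈ (mapRingHom B.subtype).range := by
      refine ⟨C 256 * (X ^ 2 - X + 1) ^ 3 - C ⟨J, hJ⟩ * (X ^ 2 * (X - 1) ^ 2), ?_⟩
      simp [P, Polynomial.map_ofNat, map_ofNat]
    obtain ⟨Q, hQ⟩ := hPB
    intro k
    rw [← hQ, coe_mapRingHom, coeff_map]
    exact (Q.coeff k).2
  obtain ⟨l, hl, hli⟩ := exists_integral_root (by omega) hc (by rw [hlead, v256])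
  have hl0 : 256 * (l ^ 2 - l + 1) ^ 3 = J * (l ^ 2 * (l - 1) ^ 2) := by
    simp only [P, eval_add, eval_sub, eval_mul, eval_pow, eval_X, eval_C, eval_one] at hl
    linear_combination hl
  have hli1 : A.valuation (l - 1) ≤ 1 := A.valuation.map_sub_le hli A.valuation.map_one.le
  have key : A.valuation l * A.valuation (l - 1) = 1 := by
    by_contra hne
    have hlt : A.valuation (l * (l - 1)) < 1 := by
      rw [map_mul]; exact lt_of_le_of_ne (mul_le_one' hli hli1) hne
    have h1 : A.valuation (l ^ 2 - l + 1) = 1 := by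
      rw [show l ^ 2 - l + 1 = 1 + l * (l - 1) by ring,
        A.valuation.map_add_eq_of_lt_left (by rwa [map_one]), map_one]
    have := congrArg A.valuation hl0
    rw [map_mul, map_mul, map_pow _ (l ^ 2 - l + 1), h1, v256, one_pow, one_mul,
      show l ^ 2 * (l - 1) ^ 2 = (l * (l - 1)) ^ 2 by ring, map_pow] at this
    exact absurd this.symm (ne_of_lt
      ((mul_le_of_le_one_left' hJ).trans_lt (pow_lt_one₀ zero_le hlt two_ne_zero)))
  refine ⟨l, le_antisymm hli ?_, le_antisymm hli1 ?_, hl0⟩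
  · calc 1 = A.valuation l * A.valuation (l - 1) := key.symm
      _ ≤ A.valuation l := mul_le_of_le_one_right' hli1
  · calc 1 = A.valuation l * A.valuation (l - 1) := key.symm
      _ ≤ A.valuation (l - 1) := mul_le_of_le_one_left' hli

/-- An equation with the same invariant is a change of variables away. -/
theorem exists_variableChange_eq (E : WeierstrassCurve ℚ) [E.IsElliptic]
    (W : WeierstrassCurve Qb) (hΔ : W.Δ ≠ 0)
    (hj : W.c₄ ^ 3 = algebraMap ℚ Qb E.j * W.Δ) :
    ∃ C : VariableChange Qb, C • (E⁄Qb) = W := by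
  have : W.IsElliptic := ⟨isUnit_iff_ne_zero.mpr hΔ⟩
  have : (E⁄Qb).IsElliptic := inferInstanceAs (E.map (algebraMap ℚ Qb)).IsElliptic
  refine exists_variableChange_of_j_eq _ _ ?_
  rw [show (E⁄Qb).j = algebraMap ℚ Qb E.j from map_j _ _]
  rw [show W.j = W.Δ'⁻¹ * W.c₄ ^ 3 from rfl, Units.eq_inv_mul_iff_mul_eq, coe_Δ', hj]
  ring

/-- **A good or nodal equation with the invariant of `E`**, in one of three normal forms: Legendre
at `3`, Deuring elsewhere, and one defined over `ℚ` at a pole. -/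
theorem exists_normalForm (E : WeierstrassCurve ℚ) [E.IsElliptic] {q : ℕ} (hq : q.Prime)
    {A : ValuationSubring Qb} (hA : A.LiesOverPrime q) :
    ∃ W : WeierstrassCurve Qb, W.Δ ≠ 0 ∧ W.c₄ ^ 3 = algebraMap ℚ Qb E.j * W.Δ ∧
      FA.Local.IntCoeff A.valuation W.toAffine ∧
      (A.valuation W.Δ = 1 ∨ (A.valuation W.Δ < 1 ∧ A.valuation W.c₄ = 1)) ∧
      ((q = 3 ∧ ∃ l : Qb, W = ⟨0, -(1 + l), 0, l, 0⟩ ∧
          256 * (l ^ 2 - l + 1) ^ 3 = algebraMap ℚ Qb E.j * (l ^ 2 * (l - 1) ^ 2)) ∨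
        (q ≠ 3 ∧ ∃ a : Qb, W = ⟨a, 0, 1, 0, 0⟩ ∧
          (a * (a ^ 3 - 24)) ^ 3 = algebraMap ℚ Qb E.j * (a ^ 3 - 27)) ∨
        W = ⟨1, 0, 0, -36 * (algebraMap ℚ Qb E.j - 1728)⁻¹,
          -(algebraMap ℚ Qb E.j - 1728)⁻¹⟩) := by
  set J := algebraMap ℚ Qb E.j with hJ
  rcases le_or_gt (A.valuation J) 1 with hJ1 | hJ1
  · by_cases h3 : q = 3
    · obtain ⟨l, hl, hl1, heq⟩ := exists_legendre hq hA (by omega) hJ1
      let W : WeierstrassCurve Qb := ⟨0, -(1 + l), 0, l, 0⟩
      have v2 : A.valuation (2 : Qb) = 1 := by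
        have := natCast_eq_one_of_not_dvd hq (map_natCast_lt_one hA) (n := 2) fun h => by
          subst h3; norm_num at h
        simpa using this
      have eΔ : W.Δ = 16 * (l ^ 2 * (l - 1) ^ 2) := by
        simp only [W, WeierstrassCurve.Δ, b₂, b₄, b₆, b₈]; ring
      have ec : W.c₄ = 16 * (l ^ 2 - l + 1) := by simp only [W, c₄, b₂, b₄]; ring
      have hΔ1 : A.valuation W.Δ = 1 := by
        rw [eΔ, show (16 : Qb) = 2 ^ 4 by norm_num]
        simp [map_mul, map_pow, v2, hl, hl1]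
      refine ⟨W, fun h0 => by simp [h0] at hΔ1, ?_, ⟨?_, ?_, ?_, ?_, ?_⟩, Or.inl hΔ1,
        Or.inl ⟨h3, l, rfl, heq⟩⟩
      · rw [eΔ, ec]; linear_combination 16 * heq
      all_goals simp only [W]
      · simp
      · rw [A.valuation.map_neg]; exact A.valuation.map_add_le A.valuation.map_one.le hl.le
      · simp
      · exact hl.le
      · simp
    · obtain ⟨a, ha, ha1, heq⟩ := exists_deuring hq hA h3 hJ1
      let W : WeierstrassCurve Qb := ⟨a, 0, 1, 0, 0⟩
      have eΔ : W.Δ = a ^ 3 - 27 := by simp only [W, WeierstrassCurve.Δ, b₂, b₄, b₆, b₈]; ring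
      have ec : W.c₄ = a * (a ^ 3 - 24) := by simp only [W, c₄, b₂, b₄]; ring
      refine ⟨W, fun h0 => ?_, ?_, ⟨?_, ?_, ?_, ?_, ?_⟩, Or.inl (by rw [eΔ, ha1]),
        Or.inr (Or.inl ⟨h3, a, rfl, heq⟩)⟩
      · rw [eΔ] at h0; simp [h0] at ha1
      · rw [eΔ, ec, heq]
      all_goals simp only [W]
      · exact ha
      all_goals simp
  · have hJ0 : J ≠ 0 := fun h => by simp [h] at hJ1
    have h1728 : A.valuation (1728 : Qb) ≤ 1 := natCast_le_one 1728
    have hd : A.valuation (J - 1728) = A.valuation J :=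
      A.valuation.map_sub_eq_of_lt_left (h1728.trans_lt hJ1)
    have hd0 : J - 1728 ≠ 0 := fun h => by
      rw [h, map_zero] at hd
      exact hJ0 (A.valuation.zero_iff.mp hd.symm)
    set w := (J - 1728)⁻¹ with hw
    have hwv : A.valuation w < 1 := by
      rw [hw, map_inv₀, hd]
      exact inv_lt_one_of_one_lt₀ hJ1
    let W : WeierstrassCurve Qb := ⟨1, 0, 0, -36 * w, -w⟩
    have eΔ : W.Δ = J ^ 2 * w ^ 3 := by
      simp only [W, WeierstrassCurve.Δ, b₂, b₄, b₆, b₈, hw]; field_simp; ring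
    have ec : W.c₄ = J * w := by simp only [W, c₄, b₂, b₄, hw]; field_simp; ring
    have hJw : A.valuation (J * w) = 1 := by
      rw [map_mul, hw, map_inv₀, hd, mul_inv_cancel₀ (A.valuation.ne_zero_iff.mpr hJ0)]
    refine ⟨W, ?_, by rw [eΔ, ec]; ring, ⟨?_, ?_, ?_, ?_, ?_⟩, Or.inr ⟨?_, by rw [ec, hJw]⟩,
      Or.inr (Or.inr rfl)⟩
    · rw [eΔ]; exact mul_ne_zero (pow_ne_zero _ hJ0) (pow_ne_zero _ (inv_ne_zero hd0))
    case refine_7 =>
      rw [eΔ, show J ^ 2 * w ^ 3 = (J * w) ^ 2 * w by ring, map_mul, map_pow, hJw, one_pow,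
        one_mul]
      exact hwv
    all_goals simp only [W]
    · simp
    · simp
    · simp
    · rw [map_mul, A.valuation.map_neg]
      exact mul_le_one' (natCast_le_one 36) hwv.le
    · rw [A.valuation.map_neg]; exact hwv.le

/-- **A good or nodal model at a place**, over the algebraic closure. -/
theorem exists_localModel (E : WeierstrassCurve ℚ) [E.IsElliptic] {q : ℕ} (hq : q.Prime)
    {A : ValuationSubring Qb} (hA : A.LiesOverPrime q) :
    ∃ C : WeierstrassCurve.VariableChange Qb,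
      FA.Local.IntCoeff A.valuation (C • (E⁄Qb)).toAffine ∧
      (A.valuation (C • (E⁄Qb)).Δ = 1 ∨
        (A.valuation (C • (E⁄Qb)).Δ < 1 ∧ A.valuation (C • (E⁄Qb)).c₄ = 1)) := by
  obtain ⟨W, hΔ, hj, hI, hcase, -⟩ := exists_normalForm E hq hA
  obtain ⟨C, hC⟩ := exists_variableChange_eq E W hΔ hj
  exact ⟨C, by rw [hC]; exact hI, by rw [hC]; exact hcase⟩

end FA.IsogenyPrimes

end
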