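import Fermat.Agent.Frob.Semistable
import Fermat.Agent.Local.Multiplicative

/-!
# Inertia on a stable line at an arbitrary prime

Over the finite field of definition of a change to an equation with good or nodal reduction
inertia is unipotent on the torsion of order prime to the residue characteristic, so it fixes a
point of prime order which it multiplies by a scalar.
-/

set_option autoImplicit false
set_option linter.unusedSectionVars false

noncomputable section

open WeierstrassCurve
open FA.Local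
open scoped WeierstrassCurve.Affine

local notation "Qb" => AlgebraicClosure ℚ
local notation "GQ" => AlgebraicClosure ℚ ≃ₐ[ℚ] AlgebraicClosure ℚ

namespace FA.IsogenyPrimes

/-- **Unipotence on a stable line**: over a field of definition of a good or nodal equation,
inertia fixes a point of odd prime order, prime to the residue characteristic, which it multiplies
by a scalar. -/
theorem smul_eq_of_line {F L Γ : Type*} [Field F] [Field L] [IsAlgClosed L] [CharZero L]
    [Algebra F L] [DecidableEq L] [LinearOrderedCommGroupWithZero Γ] {v : Valuation L Γ}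
    (V : WeierstrassCurve F) [(V⁄L).IsElliptic] (hI : IntCoeff v (V⁄L).toAffine)
    (hred : v (V⁄L).Δ = 1 ∨ (v (V⁄L).Δ < 1 ∧ v (V⁄L).c₄ = 1))
    {τ : L ≃ₐ[F] L} (hτ : Inert v τ) {p : ℕ} (hp : p.Prime) (hodd : Odd p)
    (hpv : v (p : L) = 1) {g : (V⁄L).toAffine.Point} (hg : p • g = 0) {k : ℕ}
    (hk : τ • g = k • g) : τ • g = g := by
  have h2 : E1 v (V⁄L).toAffine (τ • (τ • g - g) - (τ • g - g)) := by
    rcases hred with hΔ | ⟨hΔ, hc⟩
    · exact hτ.e1_smul_sub_of_good V hI hΔ _
    · obtain ⟨r, hr, hr1, hN⟩ := exists_node hI two_ne_zero hΔ (V⁄L).isUnit_Δ.ne_zero hc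
      exact FA.Local.e1_smul_sub_smul_sub V hr hr1 hN two_ne_zero hI hτ hτ g
  have hn : τ • (k • g) = k • (τ • g) :=
    map_nsmul (DistribSMul.toAddMonoidHom (V⁄L).toAffine.Point τ) k g
  have e : τ • (τ • g - g) - (τ • g - g) = (((k : ℤ) - 1) * ((k : ℤ) - 1)) • g := by
    rw [gal_smul_sub, hk, hn, hk, ← natCast_zsmul, ← natCast_zsmul]
    module
  rw [e] at h2
  have h0 := eq_zero_of_e1_of_nsmul hI hodd hpv h2 (by
    rw [smul_comm, hg, zsmul_zero])
  rcases eq_or_ne g 0 with rfl | hg0
  · exact smul_zero τ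
  have := Fact.mk hp
  have hd := addOrderOf_dvd_iff_zsmul_eq_zero.mpr h0
  rw [addOrderOf_eq_prime hg hg0] at hd
  obtain ⟨c, hc⟩ := ((Nat.prime_iff_prime_int.mp hp).dvd_mul.mp hd).elim id id
  rw [hk, ← natCast_zsmul, show (k : ℤ) = c * p + 1 by linear_combination hc, add_zsmul,
    mul_zsmul, natCast_zsmul, hg, zsmul_zero, zero_add, one_zsmul]

variable (E : WeierstrassCurve ℚ) [E.IsElliptic]

/-- At a change of variables to a good or nodal equation, inertia fixing its entries fixes such a
point of the curve. -/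
theorem smul_eq_of_localModel {q : ℕ} (hq : q.Prime) {A : ValuationSubring Qb}
    (hA : A.LiesOverPrime q) (C : VariableChange Qb)
    (hI : IntCoeff A.valuation (C • (E⁄Qb)).toAffine)
    (hred : A.valuation (C • (E⁄Qb)).Δ = 1 ∨
      (A.valuation (C • (E⁄Qb)).Δ < 1 ∧ A.valuation (C • (E⁄Qb)).c₄ = 1))
    {σ : GQ} (hσ : σ ∈ A.inertiaSubgroupIn ℚ)
    (hu : σ C.u = C.u) (hr : σ C.r = C.r) (hs : σ C.s = C.s) (ht : σ C.t = C.t)
    {p : ℕ} (hp : p.Prime) (hodd : Odd p) (hpq : p ≠ q) {g : (E.toAffine⁄Qb).Point}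
    (hg : p • g = 0) {k : ℕ} (hk : σ • g = k • g) : σ • g = g := by
  let S : Set Qb := {(C.u : Qb), C.r, C.s, C.t}
  let K := IntermediateField.adjoin ℚ S
  have hS : ∀ x ∈ S, σ x = x := by
    simp [S, hu, hr, hs, ht]
  let Ck : VariableChange K :=
    ⟨Units.mk0 ⟨C.u, IntermediateField.subset_adjoin ℚ S (by simp [S])⟩
        fun h => C.u.ne_zero (congrArg Subtype.val h),
      ⟨C.r, IntermediateField.subset_adjoin ℚ S (by simp [S])⟩,
      ⟨C.s, IntermediateField.subset_adjoin ℚ S (by simp [S])⟩,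
      ⟨C.t, IntermediateField.subset_adjoin ℚ S (by simp [S])⟩⟩
  have hCk : Ck.map (algebraMap K Qb) = C := by ext <;> rfl
  let V : WeierstrassCurve K := Ck • E.map (algebraMap ℚ K)
  have hV : C • (E⁄Qb) = V⁄Qb := by
    rw [← hCk]
    show _ = (Ck • E.map (algebraMap ℚ K)).map (algebraMap K Qb)
    rw [← WeierstrassCurve.map_variableChange, WeierstrassCurve.map_map,
      ← IsScalarTower.algebraMap_eq ℚ K Qb]
    rfl
  rw [hV] at hI hred
  have : (V⁄Qb).IsElliptic := hV ▸ inferInstance
  let e := FA.Frob.vcEquiv C hV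
  have hfix : ∀ x : K, σ x.1 = x.1 := by
    have hle : K ≤ IntermediateField.fixedField (Subgroup.zpowers σ) :=
      IntermediateField.adjoin_le_iff.mpr fun x hx => by
        rw [SetLike.mem_coe, IntermediateField.mem_fixedField_iff]
        intro τ hτ
        exact Subgroup.zpowers_le.mpr (show σ ∈ MulAction.stabilizer GQ x from hS x hx) hτ
    exact fun x => IntermediateField.mem_fixedField_iff _ _ |>.mp (hle x.2) σ
      (Subgroup.mem_zpowers σ)
  let τ : Qb ≃ₐ[K] Qb := { σ with commutes' := hfix }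
  have hi := inert_of_mem_inertiaSubgroupIn A hσ
  have hτ : Inert A.valuation τ := ⟨hi.map_eq, hi.sub_lt⟩
  have he : ∀ Q : (V⁄Qb).toAffine.Point, e (τ • Q) = σ • e Q := by
    rintro (_ | ⟨x, y, h⟩)
    · rfl
    · show Affine.Point.some (FA.Frob.vcX C (σ x)) (FA.Frob.vcY C (σ x) (σ y)) _ =
        Affine.Point.some (σ (FA.Frob.vcX C x)) (σ (FA.Frob.vcY C x y)) _
      simp [FA.Frob.vcX, FA.Frob.vcY, hu, hr, hs, ht]
  obtain ⟨Q, rfl⟩ := e.surjective g
  rw [← he]
  refine congrArg e (smul_eq_of_line V hI hred hτ hp hodd ?_ ?_ (k := k) ?_)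
  · refine FA.Local.natCast_eq_one_of_not_dvd hq ?_ fun h => hpq
      ((Nat.prime_dvd_prime_iff_eq hq hp).mp (Int.natCast_dvd_natCast.mp h)).symm
    exact A.mem_nonunits_iff.mp hA
  · exact e.injective (by rw [map_nsmul, hg, map_zero])
  · exact e.injective (by rw [he, hk, map_nsmul])

end FA.IsogenyPrimes

end
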