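import Fermat.Agent.IsogenyPrimes.Inertia
import Fermat.Agent.Root.TateNoStableLine
import Fermat.Agent.Root.SummaryAbelianTorsion
import Fermat.Agent.HasseBound.Extensions

/-!
# Finitely many isogeny primes

With a stable subgroup of large prime order `p` a fixed power of its character is unramified away
from `p`, and at `p` the character is trivial or cyclotomic, so by Minkowski that power is trivial
or cyclotomic. At one good prime `l` this makes `p` divide the number of points over `F_(l ^ N)`.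
-/

set_option autoImplicit false
set_option linter.unusedSectionVars false
set_option linter.style.haveILetI false

noncomputable section

open Matrix WeierstrassCurve FA.EC FA.Frob FA.RT FA.RT.Tate
open FA.Local
open FA.JTorsion (cycP)
open scoped WeierstrassCurve.Affine

local notation "Qb" => AlgebraicClosure ℚ
local notation "GQ" => AlgebraicClosure ℚ ≃ₐ[ℚ] AlgebraicClosure ℚ

namespace FA.IsogenyPrimes

variable {W : WeierstrassCurve ℤ} [(ratCurve W).IsElliptic] {p : ℕ} [hp : Fact p.Prime]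

local notation "π" => (PadicInt.toZMod (p := p))

/-- The representation modulo `p`. -/
def repBar (B : TateBasis p W) : GQ →* Matrix (Fin 2) (Fin 2) (ZMod p) :=
  ((PadicInt.toZMod (p := p)).mapMatrix.toMonoidHom).comp B.rep

theorem phi_one_eq_iff (B : TateBasis p W) {v w : Fin 2 → ℤ_[p]} :
    B.φ 1 v = B.φ 1 w ↔ π ∘ v = π ∘ w := by
  rw [B.phi_eq_iff, funext_iff]
  refine forall_congr' fun i => ?_
  rw [Function.comp_apply, Function.comp_apply, ← sub_eq_zero, ← map_sub,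
    ← sub_eq_zero (a := π (v i)), ← map_sub, ← RingHom.mem_ker, ← RingHom.mem_ker,
    PadicInt.ker_toZModPow, PadicInt.ker_toZMod, PadicInt.maximalIdeal_eq_span_p, pow_one]

theorem map_rep_mulVec (B : TateBasis p W) (σ : GQ) (v : Fin 2 → ℤ_[p]) :
    π ∘ (B.rep σ *ᵥ v) = repBar B σ *ᵥ (π ∘ v) :=
  funext fun i => RingHom.map_mulVec _ _ _ i

theorem repBar_det (B : TateBasis p W) (σ : GQ) :
    (repBar B σ).det = π (cycP p σ : ℤ_[p]ˣ) := by
  rw [← B.det_rep σ, RingHom.map_det]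
  rfl

/-- At a good `p`, inertia has the eigenvalue one on the `p`-torsion, if some point of order `p`
reduces to a nonzero point. -/
theorem det_repBar_sub_one (B : TateBasis p W) (hgood : W.IsGoodPrimeFor p)
    {A : ValuationSubring Qb} (hA : A.LiesOverPrime p)
    (hP : ∃ P : Pts W, p • P = 0 ∧ ¬ E1 A.valuation ((ratCurve W)⁄Qb).toAffine P) {σ : GQ}
    (hσ : σ ∈ A.inertiaSubgroupIn ℚ) : (repBar B σ - 1).det = 0 := by
  by_contra hd
  obtain ⟨P, hPp, hP1⟩ := hP
  obtain ⟨w, rfl⟩ := B.surj 1 P (by rwa [pow_one])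
  obtain ⟨x, hx⟩ := (Matrix.mulVec_surjective_iff_isUnit.mpr
    ((Matrix.isUnit_iff_isUnit_det _).mpr (Ne.isUnit hd))) (π ∘ w)
  obtain ⟨v, rfl⟩ := (ZMod.ringHom_surjective π).comp_left x
  have h := (inert_of_mem_inertiaSubgroupIn A hσ).e1_smul_sub_of_good (ratCurve W)
    (intCoeff_ratCurve W A) (valuation_Δ_ratCurve W hp.out hA hgood) (B.φ 1 v)
  rw [B.rep_spec, ← map_sub] at h
  refine hP1 ((phi_one_eq_iff B).mpr ?_ ▸ h)
  rw [← hx]
  show _ = (repBar B σ - 1) *ᵥ (π ∘ v)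
  rw [sub_mulVec, one_mulVec, ← map_rep_mulVec]
  funext i
  simp only [Function.comp_apply, Pi.sub_apply, map_sub]

/-- An eigenvalue of a matrix with the eigenvalue one is one or the determinant. -/
theorem eigen_eq {R : Type*} [Field R] {M : Matrix (Fin 2) (Fin 2) R} {e : Fin 2 → R} (he : e ≠ 0)
    {x : R} (h : M *ᵥ e = x • e) :
    x * x - M.trace * x + M.det = 0 ∧ ((M - 1).det = 0 → x = 1 ∨ x = M.det) := by
  have hdet : (M - x • 1).det = 0 := Matrix.exists_mulVec_eq_zero_iff.mp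
    ⟨e, he, by rw [sub_mulVec, smul_mulVec, one_mulVec, h, sub_self]⟩
  simp only [det_fin_two, trace_fin_two, Matrix.sub_apply, Matrix.smul_apply, one_apply_eq,
    one_apply_ne zero_ne_one, one_apply_ne (one_ne_zero : (1 : Fin 2) ≠ 0), smul_eq_mul] at hdet ⊢
  refine ⟨by linear_combination hdet, fun h1 => ?_⟩
  have h2 : (x - 1) * (x - (M 0 0 * M 1 1 - M 0 1 * M 1 0)) = 0 := by
    linear_combination hdet - x * h1
  exact (mul_eq_zero.mp h2).imp sub_eq_zero.mp sub_eq_zero.mp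

/-- The trace of a power from the two eigenvalues. -/
theorem pointTrace_eq_pow {R : Type*} [CommRing R] {t q : ℤ} {α β : R} (hs : α + β = (t : R))
    (hm : α * β = (q : R)) : ∀ n, (FA.HasseBound.pointTrace t q n : R) = α ^ n + β ^ n
  | 0 => by simp [FA.HasseBound.pointTrace]; norm_num
  | 1 => by simp [FA.HasseBound.pointTrace, hs]
  | n + 2 => by
    rw [FA.HasseBound.pointTrace, Int.cast_sub, Int.cast_mul, Int.cast_mul,
      pointTrace_eq_pow hs hm (n + 1), pointTrace_eq_pow hs hm n, ← hs, ← hm]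
    ring

/-- **The congruence at a Frobenius element**: a stable line whose inertia is killed by a fixed
exponent away from `p`, and at `p` has the eigenvalue one on the `p`-torsion, makes `p` divide
`l ^ N + 1 - t_N` for the trace `a` of any element `F` of determinant `l` on the Tate module. -/
theorem dvd_of_stable_of_trace {N : ℕ}
    (hat : ∀ (B : TateBasis p W) (A : ValuationSubring Qb), A.LiesOverPrime p →
      ∀ σ ∈ A.inertiaSubgroupIn ℚ, (repBar B σ - 1).det = 0)
    (haway : ∀ q : ℕ, q.Prime → q ≠ p → ∃ A : ValuationSubring Qb, A.LiesOverPrime q ∧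
      ∀ σ ∈ A.inertiaSubgroupIn ℚ, ∀ g : Pts W, p • g = 0 →
        (∀ τ : GQ, ∃ k : ℕ, τ • g = k • g) → (σ ^ N) • g = g)
    {g : Pts W} (hg0 : g ≠ 0) (hgp : p • g = 0) (hst : ∀ σ : GQ, ∃ k : ℕ, σ • g = k • g)
    {l : ℕ} (hl : l.Prime) (hlp : l ≠ p) (F : GQ) (a : ℤ)
    (hF : ∀ B : TateBasis p W, (B.rep F).trace = (a : ℤ_[p]) ∧ (B.rep F).det = (l : ℤ_[p])) :
    (p : ℤ) ∣ (l : ℤ) ^ N + 1 - FA.HasseBound.pointTrace a l N := by
  obtain ⟨B⟩ := exists_tateBasis (p := p) W
  obtain ⟨u, rfl⟩ := B.surj 1 g (by rwa [pow_one])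
  have hu : π ∘ u ≠ 0 := fun h => hg0 (by
    rw [← map_zero (B.φ 1), phi_one_eq_iff, h]; funext i; simp)
  obtain ⟨i, hi⟩ := Function.ne_iff.mp hu
  have hline : ∀ σ, repBar B σ *ᵥ (π ∘ u) =
      ((repBar B σ *ᵥ (π ∘ u)) i / π (u i)) • (π ∘ u) := fun σ => by
    obtain ⟨k, hk⟩ := hst σ
    rw [B.rep_spec, ← map_nsmul, phi_one_eq_iff, map_rep_mulVec] at hk
    have e : π ∘ (k • u) = (k : ZMod p) • (π ∘ u) := by funext j; simp [nsmul_eq_mul]
    rw [hk, e, Pi.smul_apply, smul_eq_mul, Function.comp_apply,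
      mul_div_cancel_right₀ _ (by simpa using hi)]
  let ψ : GQ →* ZMod p :=
    { toFun := fun σ => (repBar B σ *ᵥ (π ∘ u)) i / π (u i)
      map_one' := by rw [map_one, one_mulVec, Function.comp_apply, div_self (by simpa using hi)]
      map_mul' := fun σ τ => by
        rw [map_mul, ← mulVec_mulVec]
        conv_lhs => rw [hline τ, mulVec_smul, Pi.smul_apply, smul_eq_mul, mul_div_assoc]
        rw [mul_comm] }
  have hψ : ∀ σ, repBar B σ *ᵥ (π ∘ u) = ψ σ • (π ∘ u) := hline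
  let δ : GQ →* ZMod p := Matrix.detMonoidHom.comp (repBar B)
  have hδ : ∀ σ, δ σ = π (cycP p σ : ℤ_[p]ˣ) := repBar_det B
  -- at `p`
  obtain ⟨Ap, hAp⟩ := FA.Deform.exists_liesOverPrime hp.out
  have key : ∀ σ ∈ Ap.inertiaSubgroupIn ℚ, ψ σ = 1 ∨ ψ σ = δ σ := fun σ hσ =>
    (eigen_eq hu (hψ σ)).2 (hat B Ap hAp σ hσ)
  have hor : (∀ σ ∈ Ap.inertiaSubgroupIn ℚ, ψ σ = 1) ∨
      ∀ σ ∈ Ap.inertiaSubgroupIn ℚ, ψ σ = δ σ := by
    by_contra hcon
    push Not at hcon
    obtain ⟨⟨a, ha, ha1⟩, b, hb, hb2⟩ := hcon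
    have ha2 := (key a ha).resolve_left ha1
    have hb1 := (key b hb).resolve_right hb2
    rcases key (a * b) (mul_mem ha hb) with h | h
    · rw [map_mul, hb1, mul_one] at h
      exact ha1 h
    · rw [map_mul, map_mul, hb1, mul_one, ha2] at h
      exact hb2 (hb1.trans (mul_left_cancel₀ (δ.toHomUnits a).ne_zero
        (by rw [mul_one]; exact h)))
  -- Minkowski
  obtain ⟨L, hL, hLfix⟩ := B.exists_field 1
  have hLone : ∀ τ : GQ, (∀ a ∈ L, τ a = a) → repBar B τ = 1 := fun τ hτ => by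
    ext a b
    have h := congrArg (fun M : Matrix (Fin 2) (Fin 2) (ZMod (p ^ 1)) => M a b) (hLfix τ hτ)
    have h2 := (phi_one_eq_iff B (v := fun _ => B.rep τ a b)
      (w := fun _ => (1 : Matrix (Fin 2) (Fin 2) ℤ_[p]) a b)).mp (B.phi_eq_iff.mpr fun _ => by
        rw [show PadicInt.toZModPow 1 (B.rep τ a b) = _ from h]
        rcases eq_or_ne a b with rfl | hab
        · rw [one_apply_eq, one_apply_eq, map_one]
        · rw [one_apply_ne hab, one_apply_ne hab, map_zero])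
    refine (congrFun h2 0).trans ?_
    rcases eq_or_ne a b with rfl | hab <;> simp [*]
  have hall : (∀ σ, ψ σ ^ N = 1) ∨ ∀ σ, ψ σ ^ N = δ σ ^ N := by
    have key' : ∀ χ : GQ →* ZMod p, (∀ σ ∈ Ap.inertiaSubgroupIn ℚ, ψ σ = χ σ) →
        (∀ q : ℕ, q.Prime → q ≠ p → ∀ A : ValuationSubring Qb, A.LiesOverPrime q →
          ∀ σ ∈ A.inertiaSubgroupIn ℚ, χ σ = 1) →
        (∀ σ, repBar B σ = 1 → χ σ = 1) → ∀ σ, ψ σ ^ N = χ σ ^ N := by
      intro χ hat hne hone σ
      let f : GQ →* (ZMod p)ˣ :=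
        (powMonoidHom N).comp (ψ.toHomUnits / χ.toHomUnits)
      have hf : ∀ τ, τ ∈ f.ker ↔ ψ τ ^ N = χ τ ^ N := fun τ => by
        show ((ψ.toHomUnits / χ.toHomUnits) τ) ^ N = 1 ↔ _
        rw [MonoidHom.div_apply, div_pow, div_eq_one, Units.ext_iff, Units.val_pow_eq_pow_val,
          Units.val_pow_eq_pow_val]
        rfl
      refine (hf σ).mp (eq_top_of_inertia_le f.ker L (fun τ hτ => (hf τ).mpr ?_) (fun q hq => ?_) ▸
        Subgroup.mem_top σ)
      · have h1 := hLone τ hτ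
        rw [hone τ h1, show ψ τ = 1 from by
          show (repBar B τ *ᵥ (π ∘ u)) i / π (u i) = 1
          rw [h1, one_mulVec, Function.comp_apply, div_self (by simpa using hi)]]
      · rcases eq_or_ne q p with rfl | hqp
        · exact ⟨Ap, hAp, fun τ hτ => (hf τ).mpr (by rw [hat τ hτ])⟩
        obtain ⟨A, hA, hfix⟩ := haway q hq hqp
        refine ⟨A, hA, fun τ hτ => (hf τ).mpr ?_⟩
        have h := hfix τ hτ (B.φ 1 u) hgp hst
        rw [B.rep_spec, phi_one_eq_iff, map_rep_mulVec] at h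
        rw [← map_pow, hne q hq hqp A hA τ hτ, one_pow]
        show (repBar B (τ ^ N) *ᵥ (π ∘ u)) i / π (u i) = 1
        rw [h, Function.comp_apply, div_self (by simpa using hi)]
    rcases hor with h | h
    · exact Or.inl fun σ => (key' 1 (fun τ hτ => by rw [h τ hτ, MonoidHom.one_apply])
        (fun _ _ _ _ _ _ _ => rfl) (fun _ _ => rfl) σ).trans (one_pow N)
    · exact Or.inr (key' δ h (fun q hq hqp A hA τ hτ => by
        rw [hδ, FA.JTorsion.cycP_inertia p hq hqp hA hτ, Units.val_one, map_one])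
        fun τ hτ => by show (repBar B τ).det = 1; rw [hτ, det_one])
  -- Frobenius
  obtain ⟨htr, hdt⟩ := hF B
  have hδF : δ F = (l : ZMod p) := by
    show (repBar B F).det = _
    rw [show repBar B F = (PadicInt.toZMod (p := p)).mapMatrix (B.rep F) from rfl, ← RingHom.map_det, hdt, map_natCast]
  have htrF : (repBar B F).trace = (a : ZMod p) := by
    rw [show repBar B F = (B.rep F).map π from rfl, trace_fin_two, map_apply, map_apply, ← map_add,
      ← trace_fin_two, htr, map_intCast]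
  have hchar := (eigen_eq hu (hψ F)).1
  rw [htrF, show (repBar B F).det = (l : ZMod p) from hδF] at hchar
  have hl0 : (l : ZMod p) ≠ 0 := by
    rw [Ne, ZMod.natCast_eq_zero_iff]
    exact fun h => hlp ((Nat.prime_dvd_prime_iff_eq hp.out hl).mp h).symm
  set β : ZMod p := (a : ZMod p) - ψ F with hβ
  have hprod : ψ F * β = (((l : ℤ) : ℤ) : ZMod p) := by
    rw [hβ, Int.cast_natCast]; linear_combination -hchar
  have hsum := pointTrace_eq_pow (show ψ F + β = (a : ZMod p) by rw [hβ]; ring) hprod N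
  rw [← ZMod.intCast_zmod_eq_zero_iff_dvd, Int.cast_sub, Int.cast_add, Int.cast_pow, Int.cast_one,
    hsum, Int.cast_natCast]
  have hpow : ψ F ^ N * β ^ N = (l : ZMod p) ^ N := by
    rw [← mul_pow, hprod, Int.cast_natCast]
  rcases hall with h | h
  · rw [h F] at hpow ⊢
    linear_combination -hpow
  · rw [h F, hδF] at hpow ⊢
    have hb : β ^ N = 1 := mul_left_cancel₀ (pow_ne_zero N hl0) (by rw [hpow, mul_one])
    rw [hb]
    ring

/-- **The congruence at a good prime**: a stable line whose inertia is killed by a fixed exponent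
away from `p`, and at `p` has the eigenvalue one on the `p`-torsion, makes `p` divide a number of
points. -/
theorem dvd_of_stable_of_det {N : ℕ}
    (hat : ∀ (B : TateBasis p W) (A : ValuationSubring Qb), A.LiesOverPrime p →
      ∀ σ ∈ A.inertiaSubgroupIn ℚ, (repBar B σ - 1).det = 0)
    (haway : ∀ q : ℕ, q.Prime → q ≠ p → ∃ A : ValuationSubring Qb, A.LiesOverPrime q ∧
      ∀ σ ∈ A.inertiaSubgroupIn ℚ, ∀ g : Pts W, p • g = 0 →
        (∀ τ : GQ, ∃ k : ℕ, τ • g = k • g) → (σ ^ N) • g = g)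
    {g : Pts W} (hg0 : g ≠ 0) (hgp : p • g = 0) (hst : ∀ σ : GQ, ∃ k : ℕ, σ • g = k • g)
    {l : ℕ} (hl : l.Prime) (hlp : l ≠ p) (hlgood : W.IsGoodPrimeFor l) :
    (p : ℤ) ∣ (l : ℤ) ^ N + 1 - FA.HasseBound.pointTrace (W.apOfModel l) l N := by
  obtain ⟨A, hA⟩ := FA.Deform.exists_liesOverPrime hl
  obtain ⟨F, hF⟩ := FA.Deform.exists_isFrobeniusAt hl hA
  exact dvd_of_stable_of_trace hat haway hg0 hgp hst hl hlp F _
    fun B => B.rep_frobenius hl hA hlp hlgood hF

/-- The same at an odd prime of good reduction. -/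
theorem dvd_of_stable (hgood : W.IsGoodPrimeFor p) (hp2 : p ≠ 2) {N : ℕ}
    (haway : ∀ q : ℕ, q.Prime → q ≠ p → ∃ A : ValuationSubring Qb, A.LiesOverPrime q ∧
      ∀ σ ∈ A.inertiaSubgroupIn ℚ, ∀ g : Pts W, p • g = 0 →
        (∀ τ : GQ, ∃ k : ℕ, τ • g = k • g) → (σ ^ N) • g = g)
    {g : Pts W} (hg0 : g ≠ 0) (hgp : p • g = 0) (hst : ∀ σ : GQ, ∃ k : ℕ, σ • g = k • g)
    {l : ℕ} (hl : l.Prime) (hlp : l ≠ p) (hlgood : W.IsGoodPrimeFor l) :
    (p : ℤ) ∣ (l : ℤ) ^ N + 1 - FA.HasseBound.pointTrace (W.apOfModel l) l N :=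
  dvd_of_stable_of_det (fun B _ hA _ hσ => det_repBar_sub_one B hgood hA
    (FA.OpenImage.exists_not_e1_of_stable_odd hp2 hA hg0 hgp hst) hσ) haway hg0 hgp hst hl hlp hlgood

end FA.IsogenyPrimes

end
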