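import Fermat.Agent.IsogenyPrimes.Main
import Fermat.Agent.OpenImageJ.StableLine
import Fermat.Agent.Root.SummaryInertiaTraces

/-!
# An isogeny prime of semistable reduction divides a number of points

On a stable line every inertia element away from `p` acts through a twelfth root of unity, as it
satisfies `σ² + 1 = t σ` with `|t| ≤ 2`. So if the equation has good or multiplicative reduction at
an odd prime `p`, a stable subgroup of order `p` makes `p` divide `l¹² + 1 - t₁₂` at every good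
prime `l ≠ p`.
-/

set_option autoImplicit false
set_option linter.style.haveILetI false

noncomputable section

open Matrix WeierstrassCurve FA.EC FA.Frob FA.RT FA.RT.Tate FA.Local
open scoped WeierstrassCurve.Affine

local notation "Qb" => AlgebraicClosure ℚ
local notation "GQ" => AlgebraicClosure ℚ ≃ₐ[ℚ] AlgebraicClosure ℚ

namespace FA.IsogenyPrimes

variable {W : WeierstrassCurve ℤ} [(ratCurve W).IsElliptic] {p : ℕ} [hp : Fact p.Prime]

/-- A root of `x² - t x + 1` with `|t| ≤ 2` is a twelfth root of unity. -/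
theorem pow_twelve_eq_one {R : Type*} [Field R] {t : ℤ} (ht : |t| ≤ 2) {x : R}
    (h : x ^ 2 - (t : R) * x + 1 = 0) : x ^ 12 = 1 := by
  obtain ⟨h1, h2⟩ := abs_le.mp ht
  interval_cases t <;> push_cast at h
  · rw [show x = -1 from eq_neg_of_add_eq_zero_left (pow_eq_zero_iff two_ne_zero |>.mp
      (show (x + 1) ^ 2 = 0 by linear_combination h))]
    norm_num
  · linear_combination (x ^ 4 - x ^ 3 + x - 1) * (x ^ 6 + 1) * h
  · linear_combination (x ^ 10 - x ^ 8 + x ^ 6 - x ^ 4 + x ^ 2 - 1) * h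
  · linear_combination (x ^ 4 + x ^ 3 - x - 1) * (x ^ 6 + 1) * h
  · rw [show x = 1 from sub_eq_zero.mp (pow_eq_zero_iff two_ne_zero |>.mp
      (show (x - 1) ^ 2 = 0 by linear_combination h))]
    norm_num

/-- The twelfth power of inertia at `q ≠ p` fixes the points of order `p` on stable lines. -/
theorem pow_twelve_smul_eq {q : ℕ} (hq : q.Prime) (hqp : q ≠ p) {A : ValuationSubring Qb}
    (hA : A.LiesOverPrime q) {σ : GQ} (hσ : σ ∈ A.inertiaSubgroupIn ℚ) {g : Pts W}
    (hgp : p • g = 0) (hst : ∀ τ : GQ, ∃ k : ℕ, τ • g = k • g) : σ ^ 12 • g = g := by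
  rcases eq_or_ne g 0 with rfl | hg0
  · exact FA.Local.gal_smul_zero _ _
  haveI := Fact.mk hq
  obtain ⟨t, ht, heq⟩ := FA.Summary.inertia_trace_independent (ratCurve W) hA hσ
  obtain ⟨k, hk⟩ := hst σ
  have h : σ • σ • g + g = t • (σ • g) :=
    heq p (fun h => hqp ((Nat.prime_dvd_prime_iff_eq hq hp.out).mp h)) g hgp
  have hord : addOrderOf g = p := addOrderOf_eq_prime hgp hg0
  rw [hk, FA.RT.Tate.gal_smul_nsmul, hk] at h
  have hz : ((k : ℤ) * k + 1 - t * k) • g = 0 := by
    rw [sub_smul, add_smul, one_smul, mul_smul, mul_smul, natCast_zsmul, natCast_zsmul, sub_eq_zero]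
    exact h
  have hdvd := hord ▸ addOrderOf_dvd_iff_zsmul_eq_zero.mpr hz
  rw [← ZMod.intCast_zmod_eq_zero_iff_dvd] at hdvd
  push_cast at hdvd
  have h12 : (k : ZMod p) ^ 12 = 1 :=
    pow_twelve_eq_one ht (by linear_combination hdvd)
  have hpow : ∀ n : ℕ, σ ^ n • g = k ^ n • g := fun n => by
    induction n with
    | zero => rw [pow_zero, pow_zero, one_smul, one_nsmul]
    | succ n ih => rw [pow_succ, mul_smul, hk, FA.RT.Tate.gal_smul_nsmul, ih, ← mul_nsmul', pow_succ',
        mul_comm]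
  rw [hpow]
  conv_rhs => rw [← one_nsmul g]
  rw [← sub_eq_zero, ← natCast_zsmul, ← natCast_zsmul, ← sub_smul,
    ← addOrderOf_dvd_iff_zsmul_eq_zero, hord, ← ZMod.intCast_zmod_eq_zero_iff_dvd]
  push_cast
  rw [h12, sub_self]

/-- **The criterion**: at an odd prime `p` of good or multiplicative reduction a stable subgroup of
order `p` makes `p` divide `l¹² + 1 - t₁₂` at every other good prime `l`. -/
theorem dvd_of_stable_twelve (hp2 : p ≠ 2) (hss : ¬ ((p : ℤ) ∣ W.Δ ∧ (p : ℤ) ∣ W.c₄))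
    {g : Pts W} (hg0 : g ≠ 0) (hgp : p • g = 0) (hst : ∀ σ : GQ, ∃ k : ℕ, σ • g = k • g)
    {l : ℕ} (hl : l.Prime) (hlp : l ≠ p) (hlgood : W.IsGoodPrimeFor l) :
    (p : ℤ) ∣ (l : ℤ) ^ 12 + 1 - FA.HasseBound.pointTrace (W.apOfModel l) l 12 := by
  have haway : ∀ q : ℕ, q.Prime → q ≠ p → ∃ A : ValuationSubring Qb, A.LiesOverPrime q ∧
      ∀ σ ∈ A.inertiaSubgroupIn ℚ, ∀ g : Pts W, p • g = 0 →
        (∀ τ : GQ, ∃ k : ℕ, τ • g = k • g) → (σ ^ 12) • g = g := fun q hq hqp => by
    obtain ⟨A, hA⟩ := FA.Deform.exists_liesOverPrime hq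
    exact ⟨A, hA, fun σ hσ x hx hxs => pow_twelve_smul_eq hq hqp hA hσ hx hxs⟩
  by_cases hbad : (p : ℤ) ∣ W.Δ
  · refine dvd_of_stable_of_det (fun B A hA σ hσ => ?_) haway hg0 hgp hst hl hlp hlgood
    have hΔ : W.Δ ≠ 0 := fun h => (ratCurve W).isUnit_Δ.ne_zero (by simp [ratCurve, h])
    have h := congrArg (PadicInt.toZMod (p := p)) (FA.OpenImageJ.det_rep_sub_one_of_multAt
      (A := A) ⟨hΔ, hp.out, hbad, fun h => hss ⟨hbad, h⟩, hA⟩ B hσ)
    rw [map_zero, RingHom.map_det, map_sub, map_one] at h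
    exact h
  · exact dvd_of_stable hbad hp2 haway hg0 hgp hst hl hlp hlgood

end FA.IsogenyPrimes

end
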